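import Fermat.Agent.S19.W.Defs

/-!
# S19-I / moving lemma : from local equations to the moving lemma (formal)
-/

set_option autoImplicit false

noncomputable section

namespace Fermat.Agent.S19.I

open AlgebraicCurve Fermat.Agent.S17.FF

variable {Ω F : Type} [Field Ω] [IsAlgClosed Ω] [CharZero Ω] [Field F] [Algebra Ω F] [IsFF Ω F]

/-- (ML).  [classical.  `B := D.support.filter (fun P => ∃ Z ∈ T, r P = r Z)`, `f_P` from `hLE P T`,
`f := ∏_{P ∈ B} f_P ^ (- D P)`.  `Q.ord f = ∑_{P ∈ B} (- D P) * Q.ord f_P` (`W.ord_prod`, order of a `zpow`).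
Let `r Q = r Z`, `Z ∈ T`.  For `P ∈ B`, `P ≠ Q`: `Q.ord f_P = 0`.  If `Q ∈ B`: `(D + divf f) Q = D Q - D Q = 0`.
If `Q ∉ B`: `D Q = 0` and all terms vanish.] -/
theorem moving_of_local_eq {S : Type} (r : Place Ω F → S)
    (hLE : ∀ (P : Place Ω F) (T : Finset (Place Ω F)), ∃ f : F, f ≠ 0 ∧ P.ord f = 1 ∧
      ∀ Q : Place Ω F, Q ≠ P → (r Q = r P ∨ ∃ Z ∈ T, r Q = r Z) → Q.ord f = 0)
    (D : Divisor Ω F) (T : Finset (Place Ω F)) :
    ∃ f : F, f ≠ 0 ∧ ∀ P ∈ (D + divf (K := Ω) f).support, ∀ Z ∈ T, r P ≠ r Z := by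
  classical
  set B := D.support.filter (fun P => ∃ Z ∈ T, r P = r Z) with hB
  choose φ hφ0 hφ1 hφ using fun P => hLE P T
  refine ⟨∏ P ∈ B, φ P ^ (-D P),
    Finset.prod_ne_zero_iff.2 fun P _ => zpow_ne_zero _ (hφ0 P), ?_⟩
  intro Q hQ Z hZ hrQ
  apply Finsupp.mem_support_iff.1 hQ
  rw [Finsupp.add_apply, divf_apply, W.ord_prod B Q _ (fun P _ => zpow_ne_zero _ (hφ0 P))]
  simp only [Place.ord_zpow]
  have hterm : ∀ P ∈ B, P ≠ Q → -D P * Q.ord (φ P) = 0 := fun P _ hPQ => by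
    rw [hφ P Q (Ne.symm hPQ) (Or.inr ⟨Z, hZ, hrQ⟩), mul_zero]
  by_cases hQB : Q ∈ B
  · rw [Finset.sum_eq_single_of_mem Q hQB (fun P hP hPQ => hterm P hP hPQ), hφ1, mul_one,
      add_neg_cancel]
  · have hDQ : D Q = 0 := by
      by_contra h
      exact hQB (Finset.mem_filter.2 ⟨Finsupp.mem_support_iff.2 h, Z, hZ, hrQ⟩)
    rw [hDQ, zero_add]
    exact Finset.sum_eq_zero fun P hP => hterm P hP (fun h => hQB (h ▸ hP))

end Fermat.Agent.S19.I
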